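/-
S25 (Jacobian), package A1, piece TENSOR CALCULUS.  Author: helper1308.
Built on `Core.lean` (helper5425), `A1/Basic.lean` (helper7630, verbatim copy of commit 316b21b6)
and `Lib/Tensor/Basic.lean`.

Functoriality of `tensor` / `ihom` / `lbDual` for `GluedModule.Hom` and `GluedModule.Iso`,
the symmetric monoidal isomorphisms (comm, assoc, unit), compatibility with `twist`,
and the resulting group-like calculus for line bundles.
-/
import Fermat.Agent.S25.A1.Basic
import Fermat.Agent.S25.Lib.Tensor.Basic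

set_option autoImplicit false

universe u

namespace Fermat.Agent.S25.Lib.Tensor

open scoped TensorProduct

variable {R : Type u} [CommRing R] {𝔹 : TwoChart R}

/-- The two units (this file family's and `A1/Basic`'s) coincide. -/
theorem unit_eq (𝔹 : TwoChart R) : unit 𝔹 = GluedModule.unit 𝔹 := rfl

section Functoriality

variable {N N' M M' : GluedModule 𝔹}

/-- Tensor product of morphisms. -/
def tensorHom (φ : GluedModule.Hom N M) (φ' : GluedModule.Hom N' M') :
    GluedModule.Hom (tensor N N') (tensor M M') where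
  φ₁ := TensorProduct.map φ.φ₁ φ'.φ₁
  φ₂ := TensorProduct.map φ.φ₂ φ'.φ₂
  φ₁₂ := TensorProduct.map φ.φ₁₂ φ'.φ₁₂
  comm₁ := fun t => by
    induction t using TensorProduct.induction_on with
    | zero => simp
    | tmul n n' => simp [φ.comm₁, φ'.comm₁]
    | add x y hx hy => simp only [map_add, hx, hy]
  comm₂ := fun t => by
    induction t using TensorProduct.induction_on with
    | zero => simp
    | tmul n n' => simp [φ.comm₂, φ'.comm₂]
    | add x y hx hy => simp only [map_add, hx, hy]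

/-- Tensor product of isomorphisms. -/
def tensorIso (e : GluedModule.Iso N M) (e' : GluedModule.Iso N' M') :
    GluedModule.Iso (tensor N N') (tensor M M') where
  e₁ := TensorProduct.congr e.e₁ e'.e₁
  e₂ := TensorProduct.congr e.e₂ e'.e₂
  e₁₂ := TensorProduct.congr e.e₁₂ e'.e₁₂
  comm₁ := fun t => by
    induction t using TensorProduct.induction_on with
    | zero => simp
    | tmul n n' => simp [e.comm₁, e'.comm₁]
    | add x y hx hy => simp only [map_add, hx, hy]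
  comm₂ := fun t => by
    induction t using TensorProduct.induction_on with
    | zero => simp
    | tmul n n' => simp [e.comm₂, e'.comm₂]
    | add x y hx hy => simp only [map_add, hx, hy]

end Functoriality

section Monoidal

variable (N N' N'' : GluedModule 𝔹)

/-- `N ⊗ N' ≅ N' ⊗ N`. -/
def tensorComm : GluedModule.Iso (tensor N N') (tensor N' N) where
  e₁ := TensorProduct.comm 𝔹.B₁ N.N₁ N'.N₁
  e₂ := TensorProduct.comm 𝔹.B₂ N.N₂ N'.N₂
  e₁₂ := TensorProduct.comm 𝔹.B₁₂ N.N₁₂ N'.N₁₂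
  comm₁ := fun t => by
    induction t using TensorProduct.induction_on with
    | zero => simp
    | tmul n n' => simp
    | add x y hx hy => simp only [map_add, hx, hy]
  comm₂ := fun t => by
    induction t using TensorProduct.induction_on with
    | zero => simp
    | tmul n n' => simp
    | add x y hx hy => simp only [map_add, hx, hy]

/-- `(N ⊗ N') ⊗ N'' ≅ N ⊗ (N' ⊗ N'')`. -/
def tensorAssoc : GluedModule.Iso (tensor (tensor N N') N'') (tensor N (tensor N' N'')) where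
  e₁ := TensorProduct.assoc 𝔹.B₁ N.N₁ N'.N₁ N''.N₁
  e₂ := TensorProduct.assoc 𝔹.B₂ N.N₂ N'.N₂ N''.N₂
  e₁₂ := TensorProduct.assoc 𝔹.B₁₂ N.N₁₂ N'.N₁₂ N''.N₁₂
  comm₁ := fun t => by
    induction t using TensorProduct.induction_on with
    | zero => simp
    | tmul s n'' =>
      induction s using TensorProduct.induction_on with
      | zero => simp
      | tmul n n' => rfl
      | add x y hx hy => simp only [TensorProduct.add_tmul, map_add, hx, hy]
    | add x y hx hy => simp only [map_add, hx, hy]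
  comm₂ := fun t => by
    induction t using TensorProduct.induction_on with
    | zero => simp
    | tmul s n'' =>
      induction s using TensorProduct.induction_on with
      | zero => simp
      | tmul n n' => rfl
      | add x y hx hy => simp only [TensorProduct.add_tmul, map_add, hx, hy]
    | add x y hx hy => simp only [map_add, hx, hy]

/-- `O ⊗ N ≅ N`. -/
def tensorUnitLeft : GluedModule.Iso (tensor (GluedModule.unit 𝔹) N) N where
  e₁ := TensorProduct.lid 𝔹.B₁ N.N₁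
  e₂ := TensorProduct.lid 𝔹.B₂ N.N₂
  e₁₂ := TensorProduct.lid 𝔹.B₁₂ N.N₁₂
  comm₁ := fun t => by
    induction t using TensorProduct.induction_on with
    | zero => simp
    | tmul b n => exact (N.ι₁_smul b n).symm
    | add x y hx hy => simp only [map_add, hx, hy]
  comm₂ := fun t => by
    induction t using TensorProduct.induction_on with
    | zero => simp
    | tmul b n => exact (N.ι₂_smul b n).symm
    | add x y hx hy => simp only [map_add, hx, hy]

/-- `N ⊗ O ≅ N`. -/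
def tensorUnitRight : GluedModule.Iso (tensor N (GluedModule.unit 𝔹)) N :=
  (tensorComm N (GluedModule.unit 𝔹)).trans (tensorUnitLeft N)

end Monoidal

/-! ## Compatibility with twists -/

section Twist

variable (N N' : GluedModule 𝔹) (n : ℤ)

/-- `N⟨n⟩ ⊗ N' ≅ (N ⊗ N')⟨n⟩`. -/
def tensorTwistLeft : GluedModule.Iso (tensor (N.twist n) N') ((tensor N N').twist n) where
  e₁ := LinearEquiv.refl _ _
  e₂ := LinearEquiv.refl _ _
  e₁₂ := LinearEquiv.refl _ _
  comm₁ := fun _ => rfl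
  comm₂ := fun t => by
    induction t using TensorProduct.induction_on with
    | zero => simp
    | tmul x x' =>
      change (((𝔹.u ^ n : 𝔹.B₁₂ˣ) : 𝔹.B₁₂) • N.ι₂ x) ⊗ₜ[𝔹.B₁₂] N'.ι₂ x' =
        ((𝔹.u ^ n : 𝔹.B₁₂ˣ) : 𝔹.B₁₂) • (N.ι₂ x ⊗ₜ[𝔹.B₁₂] N'.ι₂ x')
      rw [TensorProduct.smul_tmul']
    | add x y hx hy => simp only [map_add, hx, hy]

/-- `N ⊗ N'⟨n⟩ ≅ (N ⊗ N')⟨n⟩`. -/
def tensorTwistRight : GluedModule.Iso (tensor N (N'.twist n)) ((tensor N N').twist n) where
  e₁ := LinearEquiv.refl _ _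
  e₂ := LinearEquiv.refl _ _
  e₁₂ := LinearEquiv.refl _ _
  comm₁ := fun _ => rfl
  comm₂ := fun t => by
    induction t using TensorProduct.induction_on with
    | zero => simp
    | tmul x x' =>
      change N.ι₂ x ⊗ₜ[𝔹.B₁₂] (((𝔹.u ^ n : 𝔹.B₁₂ˣ) : 𝔹.B₁₂) • N'.ι₂ x') =
        ((𝔹.u ^ n : 𝔹.B₁₂ˣ) : 𝔹.B₁₂) • (N.ι₂ x ⊗ₜ[𝔹.B₁₂] N'.ι₂ x')
      rw [TensorProduct.tmul_smul]
    | add x y hx hy => simp only [map_add, hx, hy]

/-- `N⟨n⟩ ≅ N ⊗ O⟨n⟩`. -/
def twistIsoTensor : GluedModule.Iso (N.twist n) (tensor N ((GluedModule.unit 𝔹).twist n)) :=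
  (GluedModule.Iso.twist (tensorUnitRight N).symm n).trans
    (tensorTwistRight N (GluedModule.unit 𝔹) n).symm

end Twist

/-! ## Morphisms as global sections of the internal Hom -/

section HomH0

variable (N N' : GluedModule 𝔹)

/-- Two `B₁₂`-linear maps out of `N₁₂` agreeing on the image of `ι₁` are equal. -/
theorem linearMap₁₂_ext₁ {P : Type*} [AddCommGroup P] [Module 𝔹.B₁₂ P]
    (ψ ψ' : N.N₁₂ →ₗ[𝔹.B₁₂] P) (h : ∀ n, ψ (N.ι₁ n) = ψ' (N.ι₁ n)) : ψ = ψ' := by
  ext y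
  obtain ⟨n, m, rfl⟩ := N.surj₁ y
  rw [map_smul, map_smul, h]

/-- Two `B₁₂`-linear maps out of `N₁₂` agreeing on the image of `ι₂` are equal. -/
theorem linearMap₁₂_ext₂ {P : Type*} [AddCommGroup P] [Module 𝔹.B₁₂ P]
    (ψ ψ' : N.N₁₂ →ₗ[𝔹.B₁₂] P) (h : ∀ n, ψ (N.ι₂ n) = ψ' (N.ι₂ n)) : ψ = ψ' := by
  ext y
  obtain ⟨n, m, rfl⟩ := N.surj₂ y
  rw [map_smul, map_smul, h]

variable {N N'}

theorem hom_φ₁₂_eq₁ (φ : GluedModule.Hom N N') : φ.φ₁₂ = homι₁ N N' φ.φ₁ :=
  linearMap₁₂_ext₁ N _ _ fun n => by rw [φ.comm₁, homι₁_apply]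

theorem hom_φ₁₂_eq₂ (φ : GluedModule.Hom N N') : φ.φ₁₂ = homι₂ N N' φ.φ₂ :=
  linearMap₁₂_ext₂ N _ _ fun n => by rw [φ.comm₂, homι₂_apply]

/-- A morphism is determined by its two chart components. -/
theorem hom_ext_charts {φ ψ : GluedModule.Hom N N'} (h₁ : φ.φ₁ = ψ.φ₁) (h₂ : φ.φ₂ = ψ.φ₂) :
    φ = ψ := by
  apply GluedModule.Hom.ext h₁ h₂
  rw [hom_φ₁₂_eq₁ φ, hom_φ₁₂_eq₁ ψ, h₁]

/-- Build a morphism from two chart maps whose localisations agree. -/
noncomputable def homOfCharts (φ₁ : N.N₁ →ₗ[𝔹.B₁] N'.N₁) (φ₂ : N.N₂ →ₗ[𝔹.B₂] N'.N₂)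
    (h : homι₁ N N' φ₁ = homι₂ N N' φ₂) : GluedModule.Hom N N' where
  φ₁ := φ₁
  φ₂ := φ₂
  φ₁₂ := homι₁ N N' φ₁
  comm₁ := fun n => homι₁_apply N N' φ₁ n
  comm₂ := fun n => by rw [h, homι₂_apply]

/-- Morphisms of glued modules are the global sections of the internal Hom. -/
noncomputable def homEquivH0 (h₁ : Module.FinitePresentation 𝔹.B₁ N.N₁)
    (h₂ : Module.FinitePresentation 𝔹.B₂ N.N₂) :
    GluedModule.Hom N N' ≃ (ihom N N' h₁ h₂).H0 where
  toFun φ := ⟨(φ.φ₁, φ.φ₂), by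
    rw [GluedModule.mem_H0]
    change homι₁ N N' φ.φ₁ = homι₂ N N' φ.φ₂
    rw [← hom_φ₁₂_eq₁, ← hom_φ₁₂_eq₂]⟩
  invFun x := homOfCharts x.1.1 x.1.2 ((GluedModule.mem_H0 _ _).mp x.2)
  left_inv φ := hom_ext_charts rfl rfl
  right_inv x := rfl

/-- The morphism `O → N` attached to a global section. -/
def sectionHom (N : GluedModule 𝔹) (s : N.H0) : GluedModule.Hom (GluedModule.unit 𝔹) N where
  φ₁ := LinearMap.toSpanSingleton 𝔹.B₁ N.N₁ (s : N.N₁ × N.N₂).1
  φ₂ := LinearMap.toSpanSingleton 𝔹.B₂ N.N₂ (s : N.N₁ × N.N₂).2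
  φ₁₂ := LinearMap.toSpanSingleton 𝔹.B₁₂ N.N₁₂ (N.ι₁ (s : N.N₁ × N.N₂).1)
  comm₁ := fun b => by
    change 𝔹.r₁ b • N.ι₁ (s : N.N₁ × N.N₂).1 = N.ι₁ (b • (s : N.N₁ × N.N₂).1)
    rw [N.ι₁_smul]
  comm₂ := fun b => by
    change 𝔹.r₂ b • N.ι₁ (s : N.N₁ × N.N₂).1 = N.ι₂ (b • (s : N.N₁ × N.N₂).2)
    rw [N.ι₂_smul, (GluedModule.mem_H0 N _).mp s.2]

/-- Morphisms `O → N` are the global sections of `N`. -/
def unitHomEquivH0 (N : GluedModule 𝔹) : GluedModule.Hom (GluedModule.unit 𝔹) N ≃ N.H0 where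
  toFun φ := ⟨(φ.φ₁ (1 : 𝔹.B₁), φ.φ₂ (1 : 𝔹.B₂)), by
    rw [GluedModule.mem_H0]
    change N.ι₁ (φ.φ₁ (1 : 𝔹.B₁)) = N.ι₂ (φ.φ₂ (1 : 𝔹.B₂))
    rw [← φ.comm₁, ← φ.comm₂]
    change φ.φ₁₂ (𝔹.r₁ 1) = φ.φ₁₂ (𝔹.r₂ 1)
    rw [map_one 𝔹.r₁, map_one 𝔹.r₂]⟩
  invFun s := sectionHom N s
  left_inv φ := by
    apply hom_ext_charts
    · ext
      simp [sectionHom]
    · ext
      simp [sectionHom]
  right_inv s := by
    apply Subtype.ext
    simp [sectionHom]

end HomH0

/-! ## Functoriality of the internal Hom and of the dual -/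

section IhomIso

variable {N N' M M' : GluedModule 𝔹}

/-- The internal Hom is functorial for isomorphisms in both variables. -/
noncomputable def ihomIso (e : GluedModule.Iso N M) (e' : GluedModule.Iso N' M')
    (h₁ : Module.FinitePresentation 𝔹.B₁ N.N₁) (h₂ : Module.FinitePresentation 𝔹.B₂ N.N₂)
    (k₁ : Module.FinitePresentation 𝔹.B₁ M.N₁) (k₂ : Module.FinitePresentation 𝔹.B₂ M.N₂) :
    GluedModule.Iso (ihom N N' h₁ h₂) (ihom M M' k₁ k₂) where
  e₁ := LinearEquiv.arrowCongr e.e₁ e'.e₁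
  e₂ := LinearEquiv.arrowCongr e.e₂ e'.e₂
  e₁₂ := LinearEquiv.arrowCongr e.e₁₂ e'.e₁₂
  comm₁ := fun φ => by
    apply linearMap₁₂_ext₁ M
    intro m
    have hs : e.e₁₂.symm (M.ι₁ m) = N.ι₁ (e.e₁.symm m) := e.symm.comm₁ m
    change e'.e₁₂ (homι₁ N N' φ (e.e₁₂.symm (M.ι₁ m))) =
      homι₁ M M' (LinearEquiv.arrowCongr e.e₁ e'.e₁ φ) (M.ι₁ m)
    rw [hs, homι₁_apply, homι₁_apply, e'.comm₁]
    rfl
  comm₂ := fun φ => by
    apply linearMap₁₂_ext₂ M
    intro m
    have hs : e.e₁₂.symm (M.ι₂ m) = N.ι₂ (e.e₂.symm m) := e.symm.comm₂ m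
    change e'.e₁₂ (homι₂ N N' φ (e.e₁₂.symm (M.ι₂ m))) =
      homι₂ M M' (LinearEquiv.arrowCongr e.e₂ e'.e₂ φ) (M.ι₂ m)
    rw [hs, homι₂_apply, homι₂_apply, e'.comm₂]
    rfl

/-- The dual of a line bundle is functorial for isomorphisms. -/
noncomputable def lbDualIso (e : GluedModule.Iso N M) (h : N.IsLineBundle) (h' : M.IsLineBundle) :
    GluedModule.Iso (lbDual N h) (lbDual M h') :=
  ihomIso e (GluedModule.Iso.refl (unit 𝔹)) (isLineBundle_finitePresentation₁ h)
    (isLineBundle_finitePresentation₂ h) (isLineBundle_finitePresentation₁ h')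
    (isLineBundle_finitePresentation₂ h')

end IhomIso

/-! ## The group-like calculus of line bundles -/

section LineBundleCalculus

variable {L L' N N' M : GluedModule 𝔹}

/-- `L ⊗ L^∨ ≅ O`. -/
noncomputable def tensorLbDualIso (h : L.IsLineBundle) :
    GluedModule.Iso (tensor L (lbDual L h)) (GluedModule.unit 𝔹) :=
  (tensorComm L (lbDual L h)).trans (lbDualTensorIso h)

/-- `X ≅ L^∨ ⊗ (L ⊗ X)`. -/
noncomputable def isoLbDualTensorTensor (h : L.IsLineBundle) (X : GluedModule 𝔹) :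
    GluedModule.Iso X (tensor (lbDual L h) (tensor L X)) :=
  (tensorUnitLeft X).symm.trans
    ((tensorIso (lbDualTensorIso h).symm (GluedModule.Iso.refl X)).trans
      (tensorAssoc (lbDual L h) L X))

/-- Tensoring with a line bundle can be cancelled. -/
noncomputable def tensorCancelLeft (h : L.IsLineBundle)
    (e : GluedModule.Iso (tensor L N) (tensor L N')) : GluedModule.Iso N N' :=
  (isoLbDualTensorTensor h N).trans
    ((tensorIso (GluedModule.Iso.refl (lbDual L h)) e).trans (isoLbDualTensorTensor h N').symm)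

/-- Tensoring with a line bundle can be cancelled (right version). -/
noncomputable def tensorCancelRight (h : L.IsLineBundle)
    (e : GluedModule.Iso (tensor N L) (tensor N' L)) : GluedModule.Iso N N' :=
  tensorCancelLeft h ((tensorComm L N).trans (e.trans (tensorComm N' L)))

/-- Uniqueness of the inverse: `M ⊗ L ≅ O` implies `M ≅ L^∨`. -/
noncomputable def isoLbDualOfTensorIso (h : L.IsLineBundle)
    (e : GluedModule.Iso (tensor M L) (GluedModule.unit 𝔹)) : GluedModule.Iso M (lbDual L h) :=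
  tensorCancelRight h (e.trans (lbDualTensorIso h).symm)

/-- A glued module with a tensor inverse is isomorphic to the dual of that inverse; in
particular its class is determined. -/
noncomputable def lbDualLbDual (h : L.IsLineBundle) :
    GluedModule.Iso (lbDual (lbDual L h) (lbDual_isLineBundle h)) L :=
  (isoLbDualOfTensorIso (lbDual_isLineBundle h) (tensorLbDualIso h)).symm

/-- `O^∨ ≅ O`. -/
noncomputable def lbDualUnit :
    GluedModule.Iso (lbDual (GluedModule.unit 𝔹) (GluedModule.unit_isLineBundle 𝔹))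
      (GluedModule.unit 𝔹) :=
  (isoLbDualOfTensorIso (GluedModule.unit_isLineBundle 𝔹)
    (tensorUnitLeft (GluedModule.unit 𝔹))).symm

/-- The interchange isomorphism `(A ⊗ B) ⊗ (C ⊗ D) ≅ (A ⊗ C) ⊗ (B ⊗ D)`. -/
noncomputable def tensorInterchange (A B C D : GluedModule 𝔹) :
    GluedModule.Iso (tensor (tensor A B) (tensor C D)) (tensor (tensor A C) (tensor B D)) :=
  -- (A ⊗ B) ⊗ (C ⊗ D) ≅ A ⊗ (B ⊗ (C ⊗ D)) ≅ A ⊗ ((B ⊗ C) ⊗ D) ≅ A ⊗ ((C ⊗ B) ⊗ D)
  --   ≅ A ⊗ (C ⊗ (B ⊗ D)) ≅ (A ⊗ C) ⊗ (B ⊗ D)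
  (tensorAssoc A B (tensor C D)).trans
    ((tensorIso (GluedModule.Iso.refl A)
      ((tensorAssoc B C D).symm.trans
        ((tensorIso (tensorComm B C) (GluedModule.Iso.refl D)).trans (tensorAssoc C B D)))).trans
      (tensorAssoc A C (tensor B D)).symm)

/-- `(L ⊗ L')^∨ ≅ L^∨ ⊗ L'^∨`. -/
noncomputable def lbDualTensor (h : L.IsLineBundle) (h' : L'.IsLineBundle) :
    GluedModule.Iso (lbDual (tensor L L') (tensor_isLineBundle h h'))
      (tensor (lbDual L h) (lbDual L' h')) :=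
  (isoLbDualOfTensorIso (tensor_isLineBundle h h')
    ((tensorInterchange (lbDual L h) (lbDual L' h') L L').trans
      ((tensorIso (lbDualTensorIso h) (lbDualTensorIso h')).trans
        (tensorUnitLeft (GluedModule.unit 𝔹))))).symm

/-- Twists by equal integers. -/
def twistCongr (N : GluedModule 𝔹) {m n : ℤ} (h : m = n) :
    GluedModule.Iso (N.twist m) (N.twist n) :=
  h ▸ GluedModule.Iso.refl (N.twist m)

/-- `(L⟨n⟩)^∨ ≅ L^∨⟨-n⟩`. -/
noncomputable def lbDualTwist (h : L.IsLineBundle) (n : ℤ) :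
    GluedModule.Iso (lbDual (L.twist n) (GluedModule.twist_isLineBundle h n))
      ((lbDual L h).twist (-n)) :=
  (isoLbDualOfTensorIso (GluedModule.twist_isLineBundle h n)
    ((tensorTwistLeft (lbDual L h) (L.twist n) (-n)).trans
      ((GluedModule.Iso.twist (tensorTwistRight (lbDual L h) L n) (-n)).trans
        ((GluedModule.twistTwist (tensor (lbDual L h) L) n (-n)).trans
          ((twistCongr _ (add_neg_cancel n)).trans
            ((GluedModule.twistZero _).trans (lbDualTensorIso h))))))).symm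

end LineBundleCalculus

/-! ## The Picard group of a two-chart -/

section Pic

variable (𝔹)

/-- Line bundles on the glued scheme. -/
def LB : Type (u + 1) := {N : GluedModule 𝔹 // N.IsLineBundle}

/-- Isomorphism of line bundles. -/
instance LB.setoid : Setoid (LB 𝔹) where
  r a b := GluedModule.IsIso a.1 b.1
  iseqv := ⟨fun a => GluedModule.IsIso.refl a.1, fun h => h.symm, fun h h' => h.trans h'⟩

/-- The Picard group of the glued scheme: isomorphism classes of line bundles. -/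
def Pic : Type (u + 1) := Quotient (LB.setoid 𝔹)

variable {𝔹}

/-- The class of a line bundle. -/
def Pic.mk (N : GluedModule 𝔹) (h : N.IsLineBundle) : Pic 𝔹 := Quotient.mk _ ⟨N, h⟩

theorem Pic.mk_eq_mk_iff {N N' : GluedModule 𝔹} (h : N.IsLineBundle) (h' : N'.IsLineBundle) :
    Pic.mk N h = Pic.mk N' h' ↔ GluedModule.IsIso N N' :=
  Quotient.eq (r := LB.setoid 𝔹)

theorem Pic.mk_surjective (x : Pic 𝔹) : ∃ (N : GluedModule 𝔹) (h : N.IsLineBundle),
    Pic.mk N h = x := by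
  induction x using Quotient.inductionOn with
  | _ a => exact ⟨a.1, a.2, rfl⟩

noncomputable instance Pic.commGroup : CommGroup (Pic 𝔹) where
  mul := Quotient.map₂ (fun a b => ⟨tensor a.1 b.1, tensor_isLineBundle a.2 b.2⟩)
    (fun _ _ h _ _ h' => ⟨tensorIso h.some h'.some⟩)
  one := Pic.mk (GluedModule.unit 𝔹) (GluedModule.unit_isLineBundle 𝔹)
  inv := Quotient.map (fun a => ⟨lbDual a.1 a.2, lbDual_isLineBundle a.2⟩)
    (fun a b h => ⟨lbDualIso h.some a.2 b.2⟩)
  mul_assoc := by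
    rintro ⟨a⟩ ⟨b⟩ ⟨c⟩
    exact Quotient.sound ⟨tensorAssoc a.1 b.1 c.1⟩
  one_mul := by
    rintro ⟨a⟩
    exact Quotient.sound ⟨tensorUnitLeft a.1⟩
  mul_one := by
    rintro ⟨a⟩
    exact Quotient.sound ⟨tensorUnitRight a.1⟩
  mul_comm := by
    rintro ⟨a⟩ ⟨b⟩
    exact Quotient.sound ⟨tensorComm a.1 b.1⟩
  inv_mul_cancel := by
    rintro ⟨a⟩
    exact Quotient.sound ⟨lbDualTensorIso a.2⟩

theorem Pic.mk_mul_mk {N N' : GluedModule 𝔹} (h : N.IsLineBundle) (h' : N'.IsLineBundle) :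
    Pic.mk N h * Pic.mk N' h' = Pic.mk (tensor N N') (tensor_isLineBundle h h') := rfl

theorem Pic.mk_inv {N : GluedModule 𝔹} (h : N.IsLineBundle) :
    (Pic.mk N h)⁻¹ = Pic.mk (lbDual N h) (lbDual_isLineBundle h) := rfl

theorem Pic.one_def :
    (1 : Pic 𝔹) = Pic.mk (GluedModule.unit 𝔹) (GluedModule.unit_isLineBundle 𝔹) := rfl

/-- `[N⟨n⟩] = [N] * [O⟨n⟩]`. -/
theorem Pic.mk_twist {N : GluedModule 𝔹} (h : N.IsLineBundle) (n : ℤ) :
    Pic.mk (N.twist n) (GluedModule.twist_isLineBundle h n) =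
      Pic.mk N h * Pic.mk ((GluedModule.unit 𝔹).twist n)
        (GluedModule.twist_isLineBundle (GluedModule.unit_isLineBundle 𝔹) n) :=
  Quotient.sound ⟨twistIsoTensor N n⟩

end Pic

end Fermat.Agent.S25.Lib.Tensor
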